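import Mathlib
import Fermat.Agent.MUL.S48.W.G.Red.Defs
import Fermat.Agent.MUL.S48.W.P.Main

section MergeWrap_S48_W_G_Red_Res -- from S48/W/G/Red/Res.lean

set_option autoImplicit false
set_option linter.style.haveILetI false

noncomputable section

namespace Fermat.Agent.S48WG

open ModularCurve AlgebraicCurve IntermediateField Fermat.Agent.GaussInt

section Generic

variable {K : Type*} [Field K] (A : ValuationSubring K)
  (F : IntermediateField K (LaurentSeries K))

/-- the set of residues of the Gauss ring (generic form). -/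
def resSetG : Set (LaurentSeries (IsLocalRing.ResidueField A)) :=
  {y | ∃ f ∈ gaussSub A F, gaussResFun A F f = y}

theorem algebraMap_mem_resSetG (c : IsLocalRing.ResidueField A) :
    algebraMap (IsLocalRing.ResidueField A) (LaurentSeries (IsLocalRing.ResidueField A)) c
      ∈ resSetG A F := by
  obtain ⟨a, rfl⟩ := IsLocalRing.residue_surjective c
  exact ⟨algebraMap K (LaurentSeries K) (a : K), algebraMap_mem_gaussSub a.2,
    gaussResFun_algebraMap a.2⟩

theorem add_mem_resSetG {y z : LaurentSeries (IsLocalRing.ResidueField A)}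
    (hy : y ∈ resSetG A F) (hz : z ∈ resSetG A F) : y + z ∈ resSetG A F := by
  obtain ⟨f, hf, rfl⟩ := hy
  obtain ⟨g, hg, rfl⟩ := hz
  exact ⟨f + g, add_mem hf hg, map_add (gaussRes A F) ⟨f, hf⟩ ⟨g, hg⟩⟩

theorem mul_mem_resSetG {y z : LaurentSeries (IsLocalRing.ResidueField A)}
    (hy : y ∈ resSetG A F) (hz : z ∈ resSetG A F) : y * z ∈ resSetG A F := by
  obtain ⟨f, ⟨Y₁, Y₂, hf⟩, rfl⟩ := hy
  obtain ⟨g, ⟨Z₁, Z₂, hg⟩, rfl⟩ := hz
  refine ⟨f * g, (hf.mul hg).mem_gaussSub, ?_⟩
  rw [gaussResFun_eq hf, gaussResFun_eq hg, gaussResFun_eq (hf.mul hg), div_mul_div_comm]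
  simp only [map_mul]

theorem inv_mem_resSetG {y : LaurentSeries (IsLocalRing.ResidueField A)}
    (hy : y ∈ resSetG A F) : y⁻¹ ∈ resSetG A F := by
  obtain ⟨f, hf, rfl⟩ := hy
  by_cases h0 : gaussResFun A F f = 0
  · rw [h0, inv_zero]
    exact ⟨0, zero_mem _, map_zero (gaussRes A F)⟩
  · exact ⟨f⁻¹, inv_mem_gaussSub hf h0, gaussResFun_inv hf h0⟩

/-- the field generated by the residues is the set of residues. -/
theorem mem_adjoin_resSetG_iff (y : LaurentSeries (IsLocalRing.ResidueField A)) :
    y ∈ IntermediateField.adjoin (IsLocalRing.ResidueField A) (resSetG A F) ↔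
      y ∈ resSetG A F := by
  refine ⟨fun hy => ?_, fun hy => IntermediateField.subset_adjoin _ _ hy⟩
  induction hy using IntermediateField.adjoin_induction with
  | mem x hx => exact hx
  | algebraMap c => exact algebraMap_mem_resSetG A F c
  | add x y _ _ hx hy => exact add_mem_resSetG A F hx hy
  | inv x _ hx => exact inv_mem_resSetG A F hx
  | mul x y _ _ hx hy => exact mul_mem_resSetG A F hx hy

end Generic

local notation "Kb" => AlgebraicClosure ℚ

variable (A : ValuationSubring Kb) (F₀ : IntermediateField ℚ (LaurentSeries ℚ))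

/-- the residue field is the set of residues. -/
theorem mem_resField_iff (y : LaurentSeries (IsLocalRing.ResidueField A)) :
    y ∈ resField A F₀ ↔ y ∈ resSet A F₀ :=
  mem_adjoin_resSetG_iff A (laurentBaseChange Kb F₀) y

/-- **G-RES**: every element of the residue field is the residue of an element of the Gauss
ring. -/
theorem resSurj : ResSurj A F₀ := fun y hy => (mem_resField_iff A F₀ y).mp hy

end Fermat.Agent.S48WG
end
end MergeWrap_S48_W_G_Red_Res
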