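import Mathlib
import Fermat.Agent.MUL.S48.W.G.Red.Defs
import Fermat.Agent.MUL.Orig.Lib.GoodRed.Defs
import Fermat.Agent.MUL.Orig.Lib.GaussInt.Bundle
import Fermat.Agent.MUL.Lib.GaussInt.ModularInst
import Fermat.Agent.MUL.S48.W.A.Dict.D3Final

section MergeWrap_S48_W_G_Red_Model -- from S48/W/G/Red/Model.lean

set_option autoImplicit false
set_option linter.unusedSectionVars false
set_option synthInstance.maxHeartbeats 400000

noncomputable section

namespace Fermat.Agent.S48WG

open ModularCurve AlgebraicCurve IntermediateField Fermat.Agent.GaussInt Fermat.Agent.RR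
  Fermat.Agent.Deuring

local notation "Kb" => AlgebraicClosure ℚ

variable {A : ValuationSubring Kb} {F₀ : IntermediateField ℚ (LaurentSeries ℚ)} {ℓ : ℕ}

/-- The standing hypotheses of the Gauss valuation, from its three components. -/
theorem redHyp (hℓ : ℓ.Prime) (hA : A.LiesOverPrime ℓ) (hI : IsIntGen A F₀) : GaussHyp A F₀ ℓ :=
  ⟨hℓ, hA, hI⟩

/-- The residues of the Gauss ring lie in the residue field `resField A F₀`. -/
theorem gaussResFun_mem_resField (f : LaurentSeries Kb)
    (hf : f ∈ gaussSub A (laurentBaseChange Kb F₀)) :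
    gaussResFun A (laurentBaseChange Kb F₀) f ∈ resField A F₀ :=
  IntermediateField.subset_adjoin _ _ ⟨f, hf, rfl⟩

section Model

variable (h : GaussHyp A F₀ ℓ) (hRS : ResSurj A F₀)
  {x : LaurentSeries Kb} (hx : x ∈ gaussSub A (laurentBaseChange Kb F₀))
  (hxt : Transcendental (IsLocalRing.ResidueField A) (resElt hx))

theorem barElt_mem_gaussValSub : barElt hx ∈ gaussValSub h := hx

set_option maxHeartbeats 1000000 in
/-- **G-MODEL**: the `RedModel` of `F = ℚ̄ F₀` at a place `A` over `ℓ`, with residue field
`resField A F₀` and base parameter `x`. -/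
def redModel :
    GoodRed.RedModel Kb (IsLocalRing.ResidueField A) ↥(laurentBaseChange Kb F₀)
      ↥(resField A F₀) where
  A := A
  res := IsLocalRing.residue A
  res_surj := IsLocalRing.residue_surjective
  res_eq_zero a := by
    rw [IsLocalRing.residue_eq_zero_iff, IsLocalRing.mem_maximalIdeal, mem_nonunits_iff]
  O := gaussValSub h
  rho := gaussValResTo h (resField A F₀) gaussResFun_mem_resField
  rho_surj := gaussValResTo_surjective h (resField A F₀) gaussResFun_mem_resField hRS
  rho_eq_zero := gaussValResTo_eq_zero_iff h (resField A F₀) gaussResFun_mem_resField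
  map_mem a := (gaussValSub_mem_iff_const h (a : Kb)).mpr a.2
  rho_map a := gaussValResTo_algebraMap h (resField A F₀) gaussResFun_mem_resField (a : Kb) a.2 _
  val f hf := by
    obtain ⟨c, hc, hmem, hres⟩ := exists_const_mul_mem_gaussSub h.isPrime h.liesOver h.isIntGen
      f.2 (fun h0 => hf (Subtype.ext h0))
    refine ⟨c, hc, hmem, ?_⟩
    rw [← not_not (a := IsUnit _),
      ← gaussValResTo_eq_zero_iff h (resField A F₀) gaussResFun_mem_resField]
    intro h0
    exact hres (congrArg Subtype.val h0)
  x := barElt hx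
  x_mem := barElt_mem_gaussValSub h hx
  x_trans := hxt

theorem redModel_A : (redModel h hRS hx hxt).A = A := rfl

theorem redModel_O : (redModel h hRS hx hxt).O = gaussValSub h := rfl

theorem redModel_res : (redModel h hRS hx hxt).res = IsLocalRing.residue A := rfl

theorem redModel_x : (redModel h hRS hx hxt).x = barElt hx := rfl

theorem redModel_xbar : (redModel h hRS hx hxt).xbar = resElt hx := rfl

theorem mem_redModel_O_iff (f : ↥(laurentBaseChange Kb F₀)) :
    f ∈ (redModel h hRS hx hxt).O ↔
      (f : LaurentSeries Kb) ∈ gaussSub A (laurentBaseChange Kb F₀) := Iff.rfl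

/-- The residue map of the model is the residue map of the Gauss ring. -/
theorem coe_redModel_rho (f : (redModel h hRS hx hxt).O) :
    (((redModel h hRS hx hxt).rho f : ↥(resField A F₀)) :
        LaurentSeries (IsLocalRing.ResidueField A)) =
      gaussResFun A (laurentBaseChange Kb F₀)
        ((f : ↥(laurentBaseChange Kb F₀)) : LaurentSeries Kb) := rfl

end Model

section Setup

variable (h : GaussHyp A F₀ ℓ) (hRS : ResSurj A F₀)
  (hF : IsRRField Kb ↥(laurentBaseChange Kb F₀))
  (hFk : IsRRField (IsLocalRing.ResidueField A) ↥(resField A F₀))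

/-- **G-MODEL, Deuring form**: the Gauss valuation of `F = ℚ̄ F₀` as a constant reduction in the
sense of `Deuring.ValSetup`, with residue function field `resField A F₀`. -/
def redValSetup :
    ValSetup Kb ↥(laurentBaseChange Kb F₀) (IsLocalRing.ResidueField A) ↥(resField A F₀) :=
  gaussValSetup h (resField A F₀) gaussResFun_mem_resField hRS hF hFk

@[simp] theorem redValSetup_A : (redValSetup h hRS hF hFk).A = A := rfl

@[simp] theorem redValSetup_Ov : (redValSetup h hRS hF hFk).Ov = gaussValSub h := rfl

theorem redValSetup_res : (redValSetup h hRS hF hFk).res = IsLocalRing.residue A := rfl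

theorem mem_redValSetup_Ov_iff (f : ↥(laurentBaseChange Kb F₀)) :
    f ∈ (redValSetup h hRS hF hFk).Ov ↔
      (f : LaurentSeries Kb) ∈ gaussSub A (laurentBaseChange Kb F₀) := Iff.rfl

/-- The residue map of the setup is the residue map of the Gauss ring. -/
theorem coe_redValSetup_ρ (f : ↥(laurentBaseChange Kb F₀))
    (hf : f ∈ (redValSetup h hRS hF hFk).Ov) :
    (((redValSetup h hRS hF hFk).ρ ⟨f, hf⟩ : ↥(resField A F₀)) :
        LaurentSeries (IsLocalRing.ResidueField A)) =
      gaussResFun A (laurentBaseChange Kb F₀) (f : LaurentSeries Kb) := rfl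

theorem coe_redValSetup_red {f : ↥(laurentBaseChange Kb F₀)}
    (hf : (f : LaurentSeries Kb) ∈ gaussSub A (laurentBaseChange Kb F₀)) :
    (((redValSetup h hRS hF hFk).red f : ↥(resField A F₀)) :
        LaurentSeries (IsLocalRing.ResidueField A)) =
      gaussResFun A (laurentBaseChange Kb F₀) (f : LaurentSeries Kb) :=
  coe_gaussValSetup_red h _ _ _ _ _ hf

/-- `ρ f = 1` in the setup iff the Gauss residue of `f` is `1`. -/
theorem redValSetup_ρ_eq_one_iff (f : ↥(laurentBaseChange Kb F₀))
    (hf : f ∈ (redValSetup h hRS hF hFk).Ov) :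
    (redValSetup h hRS hF hFk).ρ ⟨f, hf⟩ = 1 ↔
      gaussResFun A (laurentBaseChange Kb F₀) (f : LaurentSeries Kb) = 1 := by
  rw [← coe_redValSetup_ρ h hRS hF hFk f hf]
  constructor
  · intro h1
    rw [h1]
    rfl
  · intro h1
    exact Subtype.ext h1

/-- **LATTICE property of the Gauss valuation** (orthonormal bases), generic form. -/
theorem hasLattice_redValSetup : HasLattice (redValSetup h hRS hF hFk) :=
  hasLattice_gaussValSetup h _ _ _ _ _

end Setup

end Fermat.Agent.S48WG
end
end MergeWrap_S48_W_G_Red_Model
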